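/-
IHARA / E (lead), package (I) [E′], part 4 = **(CMP): the abstract Chebotarev comparison**.

Two Hecke data `(A₁, r₁, M₁, ρ₁)`, `(A₂, r₂, M₂, ρ₂)` over `𝒪` and `𝒪`-linear maps `e_i : M_i → M̄` into
a module killed by `ϖ`.  If `𝔪_{A_i}^n ⊆ ϖ A_i` for some `n` and the actions of `tr r₁(Frob_ℓ)`,
`tr r₂(Frob_ℓ)` are intertwined by `(e₁, e₂)` for all primes `ℓ ∉ S`, then the actions of `tr r₁(g)`,
`tr r₂(g)` are intertwined for EVERY `g ∈ G_ℚ` (Chebotarev `s58c_exists_frob` + continuity `MatCts`).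

* `ihe_trace_congr`     : `r σ ≡ 1 mod 𝔪^n` ⟹ `tr r(φ σ) - tr r(φ) ∈ 𝔪^n`;
* `ihe_cmp`             : the comparison;
* `ihe_cmp_vanish`      : consumer form: if `ρ₂ (tr r₂(g) - c) = 0` (with `c ∈ 𝒪`) then
  `ρ₁ (tr r₁(g) - c) M₁ ⊆ ker e₁`;
* `ihe_exists_pow_le`   : for a local ring `A` finite over a local ring `𝒪` with `𝔪_𝒪 = (ϖ)`:
  `𝔪_A^n ⊆ ϖ A` for some `n`.
-/
import Mathlib
import Fermat.Agent.Lib.S58.Compare
import Fermat.Agent.Lib.S53.MatInterface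

set_option autoImplicit false
set_option linter.unusedSectionVars false
set_option linter.unusedVariables false
set_option linter.style.haveILetI false

open IsLocalRing Matrix Fermat.Agent.S53Lib Fermat.Agent.S58 Fermat.Agent.DS

namespace Fermat.Agent.Ihara

local notation "Qb" => AlgebraicClosure ℚ
local notation "GQ" => (AlgebraicClosure ℚ ≃ₐ[ℚ] AlgebraicClosure ℚ)

section Trace

variable {A : Type*} [CommRing A]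

/-- `Y ≡ 1 mod I` entrywise ⟹ `tr (X Y) - tr X ∈ I` -/
theorem ihe_trace_congr (I : Ideal A) (X Y : Matrix (Fin 2) (Fin 2) A)
    (h : ∀ i j, (Y - 1) i j ∈ I) : (X * Y).trace - X.trace ∈ I := by
  have h1 : (X * Y).trace - X.trace = (X * (Y - 1)).trace := by
    rw [mul_sub, mul_one, Matrix.trace_sub]
  rw [h1, Matrix.trace_fin_two]
  simp only [Matrix.mul_apply, Fin.sum_univ_two]
  exact I.add_mem (I.add_mem (I.mul_mem_left _ (h 0 0)) (I.mul_mem_left _ (h 1 0)))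
    (I.add_mem (I.mul_mem_left _ (h 0 1)) (I.mul_mem_left _ (h 1 1)))

end Trace

section Cmp

variable {𝒪 : Type} [CommRing 𝒪] (ϖ : 𝒪)
  {A₁ : Type} [CommRing A₁] [IsLocalRing A₁] [Algebra 𝒪 A₁]
  {A₂ : Type} [CommRing A₂] [IsLocalRing A₂] [Algebra 𝒪 A₂]
  (r₁ : GQ →* Matrix (Fin 2) (Fin 2) A₁) (h₁ : MatCts A₁ r₁)
  (r₂ : GQ →* Matrix (Fin 2) (Fin 2) A₂) (h₂ : MatCts A₂ r₂)
  (hn₁ : ∃ n : ℕ, maximalIdeal A₁ ^ n ≤ Ideal.span {algebraMap 𝒪 A₁ ϖ})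
  (hn₂ : ∃ n : ℕ, maximalIdeal A₂ ^ n ≤ Ideal.span {algebraMap 𝒪 A₂ ϖ})
  {M₁ M₂ Mb : Type*} [AddCommGroup M₁] [Module 𝒪 M₁] [AddCommGroup M₂] [Module 𝒪 M₂]
  [AddCommGroup Mb] [Module 𝒪 Mb]
  (ρ₁ : A₁ →ₐ[𝒪] Module.End 𝒪 M₁) (ρ₂ : A₂ →ₐ[𝒪] Module.End 𝒪 M₂)
  (e₁ : M₁ →ₗ[𝒪] Mb) (e₂ : M₂ →ₗ[𝒪] Mb) (hϖ : ∀ m : Mb, ϖ • m = 0)
  (S : Finset ℕ)
  (hfrob : ∀ ℓ : ℕ, ℓ.Prime → ℓ ∉ S → ∀ P : ValuationSubring Qb, P.LiesOverPrime ℓ →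
    ∀ φ : GQ, P.IsFrobeniusAt φ ℓ → ∀ (v₁ : M₁) (v₂ : M₂), e₁ v₁ = e₂ v₂ →
      e₁ (ρ₁ (r₁ φ).trace v₁) = e₂ (ρ₂ (r₂ φ).trace v₂))

omit [IsLocalRing A₁] in
/-- an element of `ϖ A` acts as zero after `e` -/
theorem ihe_e_of_mem_span (a : A₁) (ha : a ∈ Ideal.span {algebraMap 𝒪 A₁ ϖ}) (hϖ : ∀ m : Mb, ϖ • m = 0)
    (v : M₁) : e₁ (ρ₁ a v) = 0 := by
  obtain ⟨a', rfl⟩ := Ideal.mem_span_singleton'.mp ha
  have h1 : a' * algebraMap 𝒪 A₁ ϖ = ϖ • a' := by rw [Algebra.smul_def, mul_comm]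
  rw [h1, map_smul, LinearMap.smul_apply, map_smul, hϖ]

include h₁ h₂ hn₁ hn₂ hϖ hfrob in
/-- **(CMP)**: the actions of the traces of all Galois elements are intertwined -/
theorem ihe_cmp (g : GQ) (v₁ : M₁) (v₂ : M₂) (hv : e₁ v₁ = e₂ v₂) :
    e₁ (ρ₁ (r₁ g).trace v₁) = e₂ (ρ₂ (r₂ g).trace v₂) := by
  obtain ⟨n₁, hn₁⟩ := hn₁
  obtain ⟨n₂, hn₂⟩ := hn₂
  obtain ⟨L₁, hL₁, hr₁⟩ := h₁ n₁
  obtain ⟨L₂, hL₂, hr₂⟩ := h₂ n₂
  obtain ⟨L, hLfin, hLnorm, hL₁L, hL₂L⟩ := dsf_exists_normal_level L₁ L₂ hL₁ hL₂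
  haveI := hLfin
  haveI := hLnorm
  obtain ⟨ℓ, hℓ, hℓS, P, φ, hP, hφ, hres⟩ :=
    s58c_exists_frob (AlgEquiv.restrictNormalHom (F := ℚ) (K₁ := Qb) L)
      (s58c_restrict_level L) S g
  have heq := s58c_eq_of_restrict_eq L hres
  have hfix : ∀ x ∈ L, (φ⁻¹ * g) x = x := by
    intro x hx
    rw [AlgEquiv.mul_apply, ← heq x hx]
    exact φ.symm_apply_apply x
  have hg : g = φ * (φ⁻¹ * g) := by rw [mul_inv_cancel_left]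
  have k₁ : (r₁ g).trace - (r₁ φ).trace ∈ Ideal.span {algebraMap 𝒪 A₁ ϖ} := by
    apply hn₁
    rw [hg, map_mul]
    exact ihe_trace_congr _ _ _ (hr₁ _ fun x hx => hfix x (hL₁L hx))
  have k₂ : (r₂ g).trace - (r₂ φ).trace ∈ Ideal.span {algebraMap 𝒪 A₂ ϖ} := by
    apply hn₂
    rw [hg, map_mul]
    exact ihe_trace_congr _ _ _ (hr₂ _ fun x hx => hfix x (hL₂L hx))
  have j₁ : e₁ (ρ₁ (r₁ g).trace v₁) = e₁ (ρ₁ (r₁ φ).trace v₁) := by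
    have := ihe_e_of_mem_span ϖ ρ₁ e₁ _ k₁ hϖ v₁
    rw [map_sub, LinearMap.sub_apply, map_sub, sub_eq_zero] at this
    exact this
  have j₂ : e₂ (ρ₂ (r₂ g).trace v₂) = e₂ (ρ₂ (r₂ φ).trace v₂) := by
    have := ihe_e_of_mem_span ϖ ρ₂ e₂ _ k₂ hϖ v₂
    rw [map_sub, LinearMap.sub_apply, map_sub, sub_eq_zero] at this
    exact this
  rw [j₁, j₂]
  exact hfrob ℓ hℓ hℓS P hP φ hφ v₁ v₂ hv

include h₁ h₂ hn₁ hn₂ hϖ hfrob in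
/-- **(CMP), consumer form**: if `tr r₂(g) - c` acts as zero on `M₂` (`c ∈ 𝒪`) and `e₂` is onto, then
`tr r₁(g) - c` maps `M₁` into `ker e₁` -/
theorem ihe_cmp_vanish (he₂ : Function.Surjective e₂) (g : GQ) (c : 𝒪)
    (h0 : ρ₂ ((r₂ g).trace - algebraMap 𝒪 A₂ c) = 0) (v₁ : M₁) :
    e₁ (ρ₁ ((r₁ g).trace - algebraMap 𝒪 A₁ c) v₁) = 0 := by
  obtain ⟨v₂, hv₂⟩ := he₂ (e₁ v₁)
  have h3 := ihe_cmp ϖ r₁ h₁ r₂ h₂ hn₁ hn₂ ρ₁ ρ₂ e₁ e₂ hϖ S hfrob g v₁ v₂ hv₂.symm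
  have h4 : ρ₂ (r₂ g).trace v₂ = c • v₂ := by
    have := congrArg (fun f => f v₂) h0
    simp only [map_sub, LinearMap.sub_apply, LinearMap.zero_apply, AlgHom.commutes,
      Module.algebraMap_end_apply] at this
    exact sub_eq_zero.mp this
  rw [map_sub, LinearMap.sub_apply, map_sub, h3, h4, AlgHom.commutes, Module.algebraMap_end_apply,
    map_smul, map_smul, hv₂, sub_self]

end Cmp

section PowLe

/-- for a local ring `A` finite over `𝒪` with `(ϖ)` maximal: `𝔪_A^n ⊆ ϖ A` for some `n` -/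
theorem ihe_exists_pow_le {𝒪 A : Type*} [CommRing 𝒪] [CommRing A] [IsLocalRing A] [Algebra 𝒪 A]
    [Module.Finite 𝒪 A] (ϖ : 𝒪) (hϖ : (Ideal.span {ϖ}).IsMaximal) :
    ∃ n : ℕ, maximalIdeal A ^ n ≤ Ideal.span {algebraMap 𝒪 A ϖ} := by
  have hmap : Ideal.map (algebraMap 𝒪 A) (Ideal.span {ϖ}) = Ideal.span {algebraMap 𝒪 A ϖ} := by
    rw [Ideal.map_span, Set.image_singleton]
  rw [← hmap]
  set p := Ideal.span {ϖ} with hp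
  set I := Ideal.map (algebraMap 𝒪 A) p with hI
  by_cases hI1 : I = ⊤
  · exact ⟨0, by rw [hI1]; exact le_top⟩
  letI : Field (𝒪 ⧸ p) := Ideal.Quotient.field p
  haveI : Module.Finite (𝒪 ⧸ p) (A ⧸ I) := Module.Finite.of_restrictScalars_finite 𝒪 _ _
  haveI : IsArtinianRing (A ⧸ I) := IsArtinianRing.of_finite (𝒪 ⧸ p) (A ⧸ I)
  obtain ⟨n, hn⟩ := IsArtinianRing.isNilpotent_jacobson_bot (R := A ⧸ I)
  refine ⟨n, ?_⟩
  have h1 : Ideal.map (Ideal.Quotient.mk I) (maximalIdeal A) = Ideal.jacobson ⊥ := by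
    have h2 := Ideal.map_jacobson_of_surjective (f := Ideal.Quotient.mk I) (I := I)
      Ideal.Quotient.mk_surjective (by rw [Ideal.mk_ker])
    rw [IsLocalRing.jacobson_eq_maximalIdeal I hI1, Ideal.map_quotient_self] at h2
    exact h2
  have h3 : Ideal.map (Ideal.Quotient.mk I) (maximalIdeal A ^ n) = ⊥ := by
    rw [Ideal.map_pow, h1, hn, Ideal.zero_eq_bot]
  intro x hx
  have h4 : Ideal.Quotient.mk I x ∈ Ideal.map (Ideal.Quotient.mk I) (maximalIdeal A ^ n) :=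
    Ideal.mem_map_of_mem _ hx
  rw [h3, Ideal.mem_bot, Ideal.Quotient.eq_zero_iff_mem] at h4
  exact h4

end PowLe

end Fermat.Agent.Ihara
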