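/-
IHARA / E (lead), package (I) [E′], part 6: **the field [E′] from the vanishing on the companion
module** (abstract: helper1's `Hm/Chi.lean` + `E/Cmp.lean`).

`M` an `𝒪`-module with an action `ρ` of a commutative group `G`, `G₁ ≤ G`, two characters
`χ ≡ χ'' mod ϖ` of `G₁`; Hecke data `(A₁, r₁, ρ₁)` on `M^χ` and `(A₂, r₂, ρ₂)` on `M^{χ''}` such that
`tr r_i(Frob_ℓ)` acts as the endomorphism induced by ONE endomorphism `T ℓ` of `M` (`ℓ ∉ S`).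
If `tr r₂(g) - c` kills `M^{χ''}` then `tr r₁(g) - c` maps `M^χ` into `ϖ M^χ`.
-/
import Mathlib
import Fermat.Agent.Lib.Ihara.E.Cmp
import Fermat.Agent.Lib.Ihara.Hm.Chi

set_option autoImplicit false
set_option linter.unusedSectionVars false
set_option linter.unusedVariables false
set_option linter.style.haveILetI false

open IsLocalRing Matrix Fermat.Agent.S53Lib

namespace Fermat.Agent.Ihara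

local notation "Qb" => AlgebraicClosure ℚ
local notation "GQ" => (AlgebraicClosure ℚ ≃ₐ[ℚ] AlgebraicClosure ℚ)

section Field

variable {𝒪 : Type} [CommRing 𝒪] (ϖ : 𝒪) {M : Type*} [AddCommGroup M] [Module 𝒪 M]
  {G : Type*} [Group G] (ρ : G →* Module.End 𝒪 M) (G₁ : Subgroup G) (χ χ'' : G₁ →* 𝒪)
  (hχ : ∀ g : G₁, χ g - χ'' g ∈ Ideal.span {ϖ})
  {A₁ : Type} [CommRing A₁] [IsLocalRing A₁] [Algebra 𝒪 A₁]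
  {A₂ : Type} [CommRing A₂] [IsLocalRing A₂] [Algebra 𝒪 A₂]
  (r₁ : GQ →* Matrix (Fin 2) (Fin 2) A₁) (h₁ : MatCts A₁ r₁)
  (r₂ : GQ →* Matrix (Fin 2) (Fin 2) A₂) (h₂ : MatCts A₂ r₂)
  (hn₁ : ∃ n : ℕ, maximalIdeal A₁ ^ n ≤ Ideal.span {algebraMap 𝒪 A₁ ϖ})
  (hn₂ : ∃ n : ℕ, maximalIdeal A₂ ^ n ≤ Ideal.span {algebraMap 𝒪 A₂ ϖ})
  (ρ₁ : A₁ →ₐ[𝒪] Module.End 𝒪 (IhmChi ρ G₁ χ)) (ρ₂ : A₂ →ₐ[𝒪] Module.End 𝒪 (IhmChi ρ G₁ χ''))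
  (S : Finset ℕ) (T : ℕ → Module.End 𝒪 M) (hT : ∀ ℓ, ∀ g : G₁, Commute (T ℓ) (ρ g))
  (hF₁ : ∀ ℓ : ℕ, ℓ.Prime → ℓ ∉ S → ∀ P : ValuationSubring Qb, P.LiesOverPrime ℓ →
    ∀ φ : GQ, P.IsFrobeniusAt φ ℓ → ρ₁ (r₁ φ).trace = ihmChiMap ρ G₁ χ (T ℓ) (hT ℓ))
  (hF₂ : ∀ ℓ : ℕ, ℓ.Prime → ℓ ∉ S → ∀ P : ValuationSubring Qb, P.LiesOverPrime ℓ →
    ∀ φ : GQ, P.IsFrobeniusAt φ ℓ → ρ₂ (r₂ φ).trace = ihmChiMap ρ G₁ χ'' (T ℓ) (hT ℓ))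

include hχ h₁ h₂ hn₁ hn₂ hF₁ hF₂ in
/-- **the field [E′]** -/
theorem ihe_field_of_vanish (g : GQ) (c : 𝒪)
    (h0 : ρ₂ ((r₂ g).trace - algebraMap 𝒪 A₂ c) = 0) (v : IhmChi ρ G₁ χ) :
    ∃ v' : IhmChi ρ G₁ χ, ρ₁ ((r₁ g).trace - algebraMap 𝒪 A₁ c) v = ϖ • v' := by
  set 𝔞 : Ideal 𝒪 := Ideal.span {ϖ} with h𝔞
  set E := ihmChiModEquiv ρ G₁ χ 𝔞 χ'' hχ with hE
  set e₁ : IhmChi ρ G₁ χ →ₗ[𝒪] IhmChiMod ρ G₁ χ'' 𝔞 :=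
    E.toLinearMap ∘ₗ (𝔞 • (⊤ : Submodule 𝒪 (IhmChi ρ G₁ χ))).mkQ with he₁
  set e₂ : IhmChi ρ G₁ χ'' →ₗ[𝒪] IhmChiMod ρ G₁ χ'' 𝔞 :=
    (𝔞 • (⊤ : Submodule 𝒪 (IhmChi ρ G₁ χ''))).mkQ with he₂
  have hϖ : ∀ m : IhmChiMod ρ G₁ χ'' 𝔞, ϖ • m = 0 := by
    intro m
    obtain ⟨y, rfl⟩ := Submodule.Quotient.mk_surjective _ m
    rw [← Submodule.Quotient.mk_smul, Submodule.Quotient.mk_eq_zero]
    exact Submodule.smul_mem_smul (Ideal.subset_span rfl) Submodule.mem_top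
  have hfrob : ∀ ℓ : ℕ, ℓ.Prime → ℓ ∉ S → ∀ P : ValuationSubring Qb, P.LiesOverPrime ℓ →
      ∀ φ : GQ, P.IsFrobeniusAt φ ℓ → ∀ (v₁ : IhmChi ρ G₁ χ) (v₂ : IhmChi ρ G₁ χ''),
        e₁ v₁ = e₂ v₂ → e₁ (ρ₁ (r₁ φ).trace v₁) = e₂ (ρ₂ (r₂ φ).trace v₂) := by
    intro ℓ hℓ hℓS P hP φ hφ v₁ v₂ hv
    rw [hF₁ ℓ hℓ hℓS P hP φ hφ, hF₂ ℓ hℓ hℓS P hP φ hφ]
    have k1 : e₁ (ihmChiMap ρ G₁ χ (T ℓ) (hT ℓ) v₁)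
        = ihmChiMapMod ρ G₁ χ'' 𝔞 (T ℓ) (hT ℓ) (e₁ v₁) := by
      show E (Submodule.Quotient.mk (ihmChiMap ρ G₁ χ (T ℓ) (hT ℓ) v₁)) = _
      have : (Submodule.Quotient.mk (ihmChiMap ρ G₁ χ (T ℓ) (hT ℓ) v₁) : IhmChiMod ρ G₁ χ 𝔞)
          = ihmChiMapMod ρ G₁ χ 𝔞 (T ℓ) (hT ℓ) (Submodule.Quotient.mk v₁) := rfl
      rw [this, hE, ihmChiModEquiv_map]
      rfl
    have k2 : e₂ (ihmChiMap ρ G₁ χ'' (T ℓ) (hT ℓ) v₂)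
        = ihmChiMapMod ρ G₁ χ'' 𝔞 (T ℓ) (hT ℓ) (e₂ v₂) := rfl
    rw [k1, k2, hv]
  have he₂s : Function.Surjective e₂ := Submodule.mkQ_surjective _
  have key := ihe_cmp_vanish ϖ r₁ h₁ r₂ h₂ hn₁ hn₂ ρ₁ ρ₂ e₁ e₂ hϖ S hfrob he₂s g c h0 v
  have k3 : (Submodule.Quotient.mk (ρ₁ ((r₁ g).trace - algebraMap 𝒪 A₁ c) v) :
      IhmChiMod ρ G₁ χ 𝔞) = 0 := by
    apply E.injective
    rw [map_zero]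
    exact key
  rw [Submodule.Quotient.mk_eq_zero, h𝔞, Submodule.ideal_span_singleton_smul] at k3
  obtain ⟨v', -, hv'⟩ := k3
  exact ⟨v', hv'.symm⟩

end Field

end Fermat.Agent.Ihara
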