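/-
IHARA / E (lead), package (I) [E′], part 1: **the class-level Frobenius relation (H8)** and the
resulting value of the trace of Frobenius.

* `ihe_frob_rel`: the proof of `t2f_frob_rel` (T2-F, helper3) uses the hypothesis `lam` new at `q` only
  through `U_q v = a v`, `w_q v = - a v`, `a² = 1`; this is the statement with these hypotheses:
  `(φ² - q²)(φ - U_q) v = 0` on `𝒪 ⊗ Ta_p J₀(N' q)`.
* `ihe_trace_of_rel`: pure algebra: if `g² - t g + q = 0` on a `g`-stable submodule `Y` of a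
  torsion-free module and `(g + q)(g - q)(g - a) y = 0` for some `y ≠ 0` of `Y` (`a² = 1`), then
  `t = 1 + q` or `t = -(1 + q)`.
* `ihe_exists_eigen`: `U² = 1` on `y₀ ≠ 0` ⟹ some `y₀ ± U y₀` is a non-zero eigenvector.
-/
import Mathlib
import Fermat.Agent.Lib.T2.F.H8

set_option autoImplicit false
set_option linter.unusedSectionVars false
set_option linter.unusedVariables false
set_option linter.style.haveILetI false

open scoped TensorProduct
open Matrix MatrixGroups CongruenceSubgroup Fermat.Agent.T1 Fermat.Agent.T2 ModularCurve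
  Fermat.Agent.S24Lib ModularCurve.Period

namespace Fermat.Agent.Ihara

local notation "Kbar" => AlgebraicClosure ℚ
local notation "GQ" => (AlgebraicClosure ℚ ≃ₐ[ℚ] AlgebraicClosure ℚ)

section H8

variable (p : ℕ) [hp : Fact p.Prime] (N' q : ℕ) [NeZero N'] [hq : Fact q.Prime] (h : ¬ q ∣ N')
  {DK : TdmDict Kbar (N' * q)} {DC : TdmDictC (N' * q)} (E : TdmDescent (N' * q) DK DC)
  {𝒪 : Type} [CommRing 𝒪] [IsDomain 𝒪] [CharZero 𝒪] [Algebra ℤ_[p] 𝒪]

include h in
/-- **the class-level Frobenius relation** `(φ² - q²)(φ - U_q) v = 0` for a class `v` with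
`U_q v = a v`, `w_q v = - a v`, `a² = 1` -/
theorem ihe_frob_rel (h1 : T2fP1K) (h4 : T2fP4K) (hqp : q ≠ p)
    (hDK : DK.toMer = KMod.toMer Kbar (N' * q)) (a : 𝒪) (ha : a ^ 2 = 1)
    (A : ValuationSubring Kbar) (hA : A.LiesOverPrime q) (φ : GQ) (hφ : A.IsFrobeniusAt φ q)
    {v : 𝒪 ⊗[ℤ_[p]] ↥(parabolicHoms ℤ_[p] (Gamma0 (N' * q)) ℤ_[p])}
    (hUv : (t2fUq p N' q).baseChange 𝒪 v = a • v)
    (hwv : (t2fW p N' q h).baseChange 𝒪 v = -(a • v)) :
    (((t2fGal p E φ * t2fGal p E φ - ((q : ℤ_[p]) ^ 2) •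
        (1 : Module.End ℤ_[p] ↥(parabolicHoms ℤ_[p] (Gamma0 (N' * q)) ℤ_[p]))) *
      (t2fGal p E φ - t2fUq p N' q)).baseChange 𝒪) v = 0 := by
  haveI : Module.Flat ℤ_[p] 𝒪 := t2f_flat_zp p 𝒪
  set g := t2fGal p E φ with hg
  set w := t2fW p N' q h with hw
  set P := t2fTinf DK A p with hP
  -- `u = (U_q - φ) v`
  set d : Module.End ℤ_[p] ↥(parabolicHoms ℤ_[p] (Gamma0 (N' * q)) ℤ_[p]) := t2fUq p N' q - g
    with hd
  set u := d.baseChange 𝒪 v with hu
  have hrange : LinearMap.range d ≤ P := by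
    rintro _ ⟨x, rfl⟩
    exact t2f_P1_TT p E h1 hDK q hq.out (Dvd.intro_left N' rfl) A hA φ hφ x
  have hu1 : u ∈ P.baseChange 𝒪 :=
    Submodule.baseChange_mono 𝒪 hrange (t2f_baseChange_mem_range 𝒪 d v)
  have hu_eq : u = a • v - g.baseChange 𝒪 v := by
    rw [hu, hd, LinearMap.baseChange_sub, LinearMap.sub_apply, hUv]
  -- `w u = - a u`
  have hcomm : w.baseChange 𝒪 (g.baseChange 𝒪 v) = g.baseChange 𝒪 (w.baseChange 𝒪 v) := by
    have := congrArg (fun f => (f.baseChange 𝒪) v) (t2fW_comm_gal p N' q h E hDK φ)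
    simp only [LinearMap.baseChange_mul, Module.End.mul_apply] at this
    exact this.symm
  have hwu : w.baseChange 𝒪 u = -(a • u) := by
    rw [hu_eq, map_sub, map_smul, hcomm, hwv, map_neg, map_smul, smul_neg, smul_sub]
    abel
  -- `u ∈ (w Tinf)_𝒪`
  have hu2 : u ∈ (P.map w).baseChange 𝒪 := by
    have h5 := t2f_baseChange_map 𝒪 w P (Submodule.smul_mem _ (-a) hu1)
    rw [map_smul, hwu, smul_neg, neg_smul, neg_neg, smul_smul, ← pow_two, ha, one_smul] at h5
    exact h5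
  have hu3 := t2f_baseChange_inf 𝒪 P (P.map w) hu1 hu2
  -- `φ² = q²` on `Tinf ∩ w Tinf`
  have hkill : ∀ x ∈ P ⊓ P.map w, (g * g - ((q : ℤ_[p]) ^ 2) •
      (1 : Module.End ℤ_[p] ↥(parabolicHoms ℤ_[p] (Gamma0 (N' * q)) ℤ_[p]))) x = 0 := by
    rintro x ⟨hx1, x', hx', rfl⟩
    have hx2 : w (w x') ∈ P := by
      rw [hw, t2fW_t2fW]
      exact hx'
    rw [LinearMap.sub_apply, Module.End.mul_apply, LinearMap.smul_apply, Module.End.one_apply,
      t2f_P4_TT p N' q h E h4 hqp hDK A hA φ hφ (w x') hx1 hx2, sub_self]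
  have h0 := t2f_baseChange_eq_zero 𝒪 _ (P ⊓ P.map w) hkill hu3
  have h6 : g - t2fUq p N' q = -d := (neg_sub (t2fUq p N' q) g).symm
  rw [LinearMap.baseChange_mul, Module.End.mul_apply, h6, LinearMap.baseChange_neg,
    LinearMap.neg_apply, map_neg, ← hu, h0, neg_zero]

end H8

section Algebra

variable {R : Type*} [CommRing R] [IsDomain R] {V : Type*} [AddCommGroup V] [Module R V]
  [Module.IsTorsionFree R V]

/-- a non-zero vector on which `U² = 1` gives a non-zero eigenvector of `U` for `1` or `-1` -/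
theorem ihe_exists_eigen (h2 : (2 : R) ≠ 0) (U : V →ₗ[R] V) {y₀ : V} (hy₀ : y₀ ≠ 0)
    (hUU : U (U y₀) = y₀) :
    ∃ (a : R) (y : V), (a = 1 ∨ a = -1) ∧ y ≠ 0 ∧ U y = a • y ∧ (y = y₀ + U y₀ ∨ y = y₀ - U y₀) := by
  by_cases hplus : y₀ + U y₀ = 0
  · refine ⟨-1, y₀ - U y₀, Or.inr rfl, ?_, ?_, Or.inr rfl⟩
    · intro hminus
      have h3 : (2 : R) • y₀ = 0 := by
        have : (2 : R) • y₀ = (y₀ + U y₀) + (y₀ - U y₀) := by
          rw [two_smul]; abel
        rw [this, hplus, hminus, add_zero]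
      rcases smul_eq_zero.mp h3 with h4 | h4
      · exact h2 h4
      · exact hy₀ h4
    · rw [map_sub, hUU, neg_smul, one_smul]
      abel
  · refine ⟨1, y₀ + U y₀, Or.inl rfl, hplus, ?_, Or.inl rfl⟩
    rw [map_add, hUU, one_smul, add_comm]

/-- **the trace from the two relations** -/
theorem ihe_trace_of_rel (g : V →ₗ[R] V) (t q a : R) (hq : q ≠ 0) (ha : a * a = 1)
    (Y : Submodule R V) (hYg : ∀ z ∈ Y, g z ∈ Y)
    (hP : ∀ z ∈ Y, g (g z) - t • g z + q • z = 0) {y : V} (hyY : y ∈ Y) (hy : y ≠ 0)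
    (hQ : g (g (g y - a • y) - q • (g y - a • y))
      + q • (g (g y - a • y) - q • (g y - a • y)) = 0) :
    t = 1 + q ∨ t = -(1 + q) := by
  -- an eigenvector of `g` in `Y` with eigenvalue `a`, `q` or `-q`
  have key : ∃ (x : R) (z : V), z ∈ Y ∧ z ≠ 0 ∧ g z = x • z ∧ (x = a ∨ x = q ∨ x = -q) := by
    set y₁ := g y - a • y with hy₁
    set y₂ := g y₁ - q • y₁ with hy₂
    have hy₁Y : y₁ ∈ Y := Y.sub_mem (hYg y hyY) (Y.smul_mem a hyY)
    have hy₂Y : y₂ ∈ Y := Y.sub_mem (hYg y₁ hy₁Y) (Y.smul_mem q hy₁Y)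
    by_cases h1 : y₁ = 0
    · exact ⟨a, y, hyY, hy, sub_eq_zero.mp h1, Or.inl rfl⟩
    by_cases h2 : y₂ = 0
    · exact ⟨q, y₁, hy₁Y, h1, sub_eq_zero.mp h2, Or.inr (Or.inl rfl)⟩
    · refine ⟨-q, y₂, hy₂Y, h2, ?_, Or.inr (Or.inr rfl)⟩
      rw [neg_smul]
      exact eq_neg_of_add_eq_zero_left hQ
  obtain ⟨x, z, hzY, hz, hgz, hx⟩ := key
  have h1 := hP z hzY
  rw [hgz, map_smul, hgz, smul_smul, smul_smul, ← sub_smul, ← add_smul] at h1
  have h2 : x * x - t * x + q = 0 := (smul_eq_zero.mp h1).resolve_right hz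
  rcases hx with rfl | rfl | rfl
  · -- `x = a`
    have h3 : t = x * (1 + q) := by
      have : t * (x * x) = x * (x * x + q) := by linear_combination (-x) * h2
      rw [ha, mul_one] at this
      exact this
    rcases mul_self_eq_one_iff.mp ha with rfl | rfl
    · left; rw [h3, one_mul]
    · right; rw [h3]; ring
  · -- `x = q`
    left
    have h3 : x * (t - (1 + x)) = 0 := by linear_combination (-1 : R) * h2
    rcases mul_eq_zero.mp h3 with h4 | h4
    · exact absurd h4 hq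
    · exact sub_eq_zero.mp h4
  · -- `x = -q`
    right
    have h3 : q * (t + (1 + q)) = 0 := by linear_combination h2
    rcases mul_eq_zero.mp h3 with h4 | h4
    · exact absurd h4 hq
    · exact eq_neg_of_add_eq_zero_left h4

end Algebra

end Fermat.Agent.Ihara
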