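/-
IHARA / E (lead), package (I) [E′], part 2: **the trace of Frobenius on a `q`-new Galois-stable
submodule of `𝒪 ⊗ Ta_p J₀(N' q)`**.

`Y ⊆ 𝒪 ⊗ Ta_p J₀(N' q)` stable under a Frobenius lift `φ` at `q`, under `U_q` and `w_q`, contained in the
`q`-new part (`1 + U_q w_q = 0`, `w_q + U_q = 0` on `Y`), with `φ² - t φ + q = 0` on `Y`
(Eichler–Shimura link), `Y ≠ 0`.  Then `t = 1 + q` or `t = -(1 + q)`.
-/
import Mathlib
import Fermat.Agent.Lib.Ihara.E.FrobRel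
import Fermat.Agent.Lib.T2.F.Uq
import Fermat.Agent.Lib.T2.F.ToricFinal

set_option autoImplicit false
set_option linter.unusedSectionVars false
set_option linter.unusedVariables false
set_option linter.style.haveILetI false

open scoped TensorProduct
open Matrix MatrixGroups CongruenceSubgroup Fermat.Agent.T1 Fermat.Agent.T2 ModularCurve
  Fermat.Agent.S24Lib ModularCurve.Period

namespace Fermat.Agent.Ihara

local notation "Kbar" => AlgebraicClosure ℚ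
local notation "GQ" => (AlgebraicClosure ℚ ≃ₐ[ℚ] AlgebraicClosure ℚ)

section

variable (p : ℕ) [hp : Fact p.Prime] (N' q : ℕ) [NeZero N'] [hq : Fact q.Prime] (h : ¬ q ∣ N')
  {DK : TdmDict Kbar (N' * q)} {DC : TdmDictC (N' * q)} (E : TdmDescent (N' * q) DK DC)
  {𝒪 : Type} [CommRing 𝒪] [IsDomain 𝒪] [CharZero 𝒪] [Algebra ℤ_[p] 𝒪]

include h in
/-- **the trace of Frobenius on the `q`-new part** -/
theorem ihe_trace_frob_TT (hqp : q ≠ p) (hDK : DK.toMer = KMod.toMer Kbar (N' * q))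
    (A : ValuationSubring Kbar) (hA : A.LiesOverPrime q) (φ : GQ) (hφ : A.IsFrobeniusAt φ q)
    (Y : Submodule 𝒪 (𝒪 ⊗[ℤ_[p]] ↥(parabolicHoms ℤ_[p] (Gamma0 (N' * q)) ℤ_[p])))
    (hYg : ∀ y ∈ Y, (t2fGal p E φ).baseChange 𝒪 y ∈ Y)
    (hYU : ∀ y ∈ Y, (t2fUq p N' q).baseChange 𝒪 y ∈ Y)
    (hYW : ∀ y ∈ Y, (t2fW p N' q h).baseChange 𝒪 y ∈ Y)
    (hK1 : ∀ y ∈ Y, y + (t2fUq p N' q).baseChange 𝒪 ((t2fW p N' q h).baseChange 𝒪 y) = 0)
    (hK2 : ∀ y ∈ Y, (t2fW p N' q h).baseChange 𝒪 y + (t2fUq p N' q).baseChange 𝒪 y = 0)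
    (t : 𝒪)
    (hES : ∀ y ∈ Y, (t2fGal p E φ).baseChange 𝒪 ((t2fGal p E φ).baseChange 𝒪 y)
      - t • (t2fGal p E φ).baseChange 𝒪 y + (q : 𝒪) • y = 0)
    {y₀ : 𝒪 ⊗[ℤ_[p]] ↥(parabolicHoms ℤ_[p] (Gamma0 (N' * q)) ℤ_[p])} (hy₀Y : y₀ ∈ Y)
    (hy₀ : y₀ ≠ 0) :
    t = 1 + (q : 𝒪) ∨ t = -(1 + (q : 𝒪)) := by
  haveI : Module.Free 𝒪 (𝒪 ⊗[ℤ_[p]] ↥(parabolicHoms ℤ_[p] (Gamma0 (N' * q)) ℤ_[p])) :=
    inferInstance
  set g := (t2fGal p E φ).baseChange 𝒪 with hg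
  set U := (t2fUq p N' q).baseChange 𝒪 with hU
  set W := (t2fW p N' q h).baseChange 𝒪 with hW
  have h2 : (2 : 𝒪) ≠ 0 := two_ne_zero
  have hq0 : (q : 𝒪) ≠ 0 := Nat.cast_ne_zero.mpr hq.out.ne_zero
  -- `U = -W` on `Y`, `U² = 1` on `Y`
  have hUW : ∀ y ∈ Y, U y = -W y := fun y hy => eq_neg_of_add_eq_zero_right (hK2 y hy)
  have hUU : ∀ y ∈ Y, U (U y) = y := by
    intro y hy
    rw [hUW y hy, map_neg]
    have := hK1 y hy
    rw [neg_eq_iff_eq_neg]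
    exact eq_neg_of_add_eq_zero_right this
  obtain ⟨a, y, ha, hy, hUy, hyy⟩ := ihe_exists_eigen h2 U hy₀ (hUU y₀ hy₀Y)
  have hyY : y ∈ Y := by
    rcases hyy with rfl | rfl
    · exact Y.add_mem hy₀Y (hYU y₀ hy₀Y)
    · exact Y.sub_mem hy₀Y (hYU y₀ hy₀Y)
  have ha2 : a ^ 2 = 1 := by
    rcases ha with rfl | rfl <;> ring
  have hWy : W y = -(a • y) := by
    have := hUW y hyY
    rw [hUy] at this
    rw [this, neg_neg]
  have hrel := ihe_frob_rel p N' q h E t2f_P1K t2f_P4K hqp hDK a ha2 A hA φ hφ hUy hWy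
  refine ihe_trace_of_rel g t (q : 𝒪) a hq0 (by rw [← pow_two]; exact ha2) Y hYg hES hyY hy ?_
  -- rewrite the relation
  have hq2 : (((q : ℤ_[p]) ^ 2) •
      (1 : Module.End ℤ_[p] ↥(parabolicHoms ℤ_[p] (Gamma0 (N' * q)) ℤ_[p]))).baseChange 𝒪
      = ((q : 𝒪) ^ 2) • (1 : Module.End 𝒪 _) := by
    rw [LinearMap.baseChange_smul, LinearMap.baseChange_one]
    ext x
    simp [Algebra.smul_def]
  rw [LinearMap.baseChange_mul, Module.End.mul_apply, LinearMap.baseChange_sub,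
    LinearMap.baseChange_sub, LinearMap.baseChange_mul, hq2, LinearMap.sub_apply,
    LinearMap.sub_apply, Module.End.mul_apply, LinearMap.smul_apply, Module.End.one_apply,
    ← hg, ← hU, hUy] at hrel
  rw [map_sub, map_smul, smul_sub, smul_smul, ← pow_two]
  rw [← hrel]
  abel

end

end Fermat.Agent.Ihara
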