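/-
IHARA / E (lead), package (I) [E′], part 3 = **(I-c) [H8-CLASS]: the trace of Frobenius at `q` of a
`q`-new eigenclass**.

`𝒪'` a complete discrete valuation ring of characteristic zero with `p ∈ 𝔪`, `r : G_ℚ → GL₂(𝒪')`
continuous with `tr r(Frob_ℓ) = lam ℓ`, `det r(Frob_ℓ) = ℓ` (`ℓ ∉ S`); `c ≠ 0` a class in
`Hom_par(Γ₀(N' q), 𝒪')` with `T_ℓ c = lam ℓ • c` (`ℓ ∉ S`) lying in helper3's `q`-new part
`ih4K (cor) (w_q)` (killed by both degeneracy maps to level `N'`); `φ` a Frobenius lift at a place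
over `q` (`q ∤ N'`, `q ≠ p`) with `det r(φ) = q`.  Then `tr r(φ) = 1 + q` or `tr r(φ) = -(1 + q)`.
-/
import Mathlib
import Fermat.Agent.Lib.Ihara.E.TraceTT
import Fermat.Agent.Lib.Ihara.Nf.Link
import Fermat.Agent.Lib.Ihara.H4.Betti
import Fermat.Agent.Lib.T1.Asm.PadicAlgebra
import Fermat.Agent.Lib.T2.F.WT

set_option autoImplicit false
set_option linter.unusedSectionVars false
set_option linter.unusedVariables false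
set_option linter.style.haveILetI false

open scoped TensorProduct
open IsLocalRing Matrix MatrixGroups CongruenceSubgroup Fermat.Agent.T1 Fermat.Agent.T2
  Fermat.Agent.T4 ModularCurve Fermat.Agent.S24Lib ModularCurve.Period Fermat.Agent.S53Lib

namespace Fermat.Agent.Ihara

local notation "Qb" => AlgebraicClosure ℚ
local notation "GQ" => (AlgebraicClosure ℚ ≃ₐ[ℚ] AlgebraicClosure ℚ)

section

variable (p : ℕ) [hp : Fact p.Prime] (N' q : ℕ) [NeZero N'] [hq : Fact q.Prime] (h : ¬ q ∣ N')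
  {𝒪' : Type} [CommRing 𝒪'] [Algebra ℤ_[p] 𝒪']

/-- the `q`-new conditions on `𝒪' ⊗ Ta_p J₀(N' q)` -/
noncomputable def ihePartK :
    Submodule 𝒪' (𝒪' ⊗[ℤ_[p]] ↥(parabolicHoms ℤ_[p] (Gamma0 (N' * q)) ℤ_[p])) where
  carrier := {y | y + (t2fUq p N' q).baseChange 𝒪' ((t2fW p N' q h).baseChange 𝒪' y) = 0 ∧
    (t2fW p N' q h).baseChange 𝒪' y + (t2fUq p N' q).baseChange 𝒪' y = 0}
  zero_mem' := by
    refine ⟨?_, ?_⟩ <;> simp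
  add_mem' := by
    rintro a b ⟨ha1, ha2⟩ ⟨hb1, hb2⟩
    refine ⟨?_, ?_⟩
    · rw [map_add, map_add, add_add_add_comm, ha1, hb1, add_zero]
    · rw [map_add, map_add, add_add_add_comm, ha2, hb2, add_zero]
  smul_mem' := by
    rintro c a ⟨ha1, ha2⟩
    refine ⟨?_, ?_⟩
    · rw [map_smul, map_smul, ← smul_add, ha1, smul_zero]
    · rw [map_smul, map_smul, ← smul_add, ha2, smul_zero]

theorem mem_ihePartK {y : 𝒪' ⊗[ℤ_[p]] ↥(parabolicHoms ℤ_[p] (Gamma0 (N' * q)) ℤ_[p])} :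
    y ∈ ihePartK p N' q h (𝒪' := 𝒪') ↔
      y + (t2fUq p N' q).baseChange 𝒪' ((t2fW p N' q h).baseChange 𝒪' y) = 0 ∧
      (t2fW p N' q h).baseChange 𝒪' y + (t2fUq p N' q).baseChange 𝒪' y = 0 :=
  Iff.rfl

theorem ihe_W_W (y : 𝒪' ⊗[ℤ_[p]] ↥(parabolicHoms ℤ_[p] (Gamma0 (N' * q)) ℤ_[p])) :
    (t2fW p N' q h).baseChange 𝒪' ((t2fW p N' q h).baseChange 𝒪' y) = y := by
  have h1 : (t2fW p N' q h) * (t2fW p N' q h) = 1 := by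
    ext x : 1
    rw [Module.End.mul_apply, t2fW_t2fW, Module.End.one_apply]
  have h2 := congrArg (fun f => (f.baseChange 𝒪') y) h1
  simpa only [LinearMap.baseChange_mul, Module.End.mul_apply, LinearMap.baseChange_one,
    Module.End.one_apply] using h2

theorem ihePartK_W {y : 𝒪' ⊗[ℤ_[p]] ↥(parabolicHoms ℤ_[p] (Gamma0 (N' * q)) ℤ_[p])}
    (hy : y ∈ ihePartK p N' q h (𝒪' := 𝒪')) :
    (t2fW p N' q h).baseChange 𝒪' y ∈ ihePartK p N' q h (𝒪' := 𝒪') := by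
  obtain ⟨h1, h2⟩ := hy
  refine ⟨?_, ?_⟩
  · rw [ihe_W_W]; exact h2
  · rw [ihe_W_W]; exact h1

theorem ihePartK_U {y : 𝒪' ⊗[ℤ_[p]] ↥(parabolicHoms ℤ_[p] (Gamma0 (N' * q)) ℤ_[p])}
    (hy : y ∈ ihePartK p N' q h (𝒪' := 𝒪')) :
    (t2fUq p N' q).baseChange 𝒪' y ∈ ihePartK p N' q h (𝒪' := 𝒪') := by
  have h1 : (t2fUq p N' q).baseChange 𝒪' y = -(t2fW p N' q h).baseChange 𝒪' y :=
    eq_neg_of_add_eq_zero_right hy.2
  rw [h1]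
  exact Submodule.neg_mem _ (ihePartK_W p N' q h hy)

end

section Main

variable (p : ℕ) [hp : Fact p.Prime] (N' q : ℕ) [NeZero N'] [hq : Fact q.Prime] (h : ¬ q ∣ N')
  (hqp : q ≠ p)
  (S : Finset ℕ) (hpS : p ∈ S) (hNS : ∀ ℓ : ℕ, ℓ.Prime → ℓ ∣ N' * q → ℓ ∈ S)
  {𝒪' : Type} [CommRing 𝒪'] [IsDomain 𝒪'] [IsDiscreteValuationRing 𝒪'] [CharZero 𝒪']
  [IsAdicComplete (maximalIdeal 𝒪') 𝒪'] (hp𝒪 : (p : 𝒪') ∈ maximalIdeal 𝒪')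
  (lam : ℕ → 𝒪') (r : GQ →* Matrix (Fin 2) (Fin 2) 𝒪') (hcts : MatCts 𝒪' r)
  (hfrob : ∀ ℓ : ℕ, ℓ.Prime → ℓ ∉ S → ∀ P : ValuationSubring Qb, P.LiesOverPrime ℓ →
    ∀ φ : GQ, P.IsFrobeniusAt φ ℓ → (r φ).trace = lam ℓ ∧ (r φ).det = (ℓ : 𝒪'))
  (c : ↥(parabolicHoms 𝒪' (Gamma0 (N' * q)) 𝒪')) (hc0 : c ≠ 0)
  (hcT : ∀ (ℓ : ℕ) (hℓ : ℓ.Prime) (hℓN : ¬ ℓ ∣ N' * q), ℓ ∉ S →
    (tdmSysT (N' * q) ℓ hℓ hℓN).homPar 𝒪' 𝒪' c = lam ℓ • c)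
  (A : ValuationSubring Qb) (hA : A.LiesOverPrime q) (φ : GQ) (hφ : A.IsFrobeniusAt φ q)
  (hdetφ : (r φ).det = (q : 𝒪'))

include hqp hpS hNS hp𝒪 hcts hfrob hc0 hcT hA hφ hdetφ in
/-- **(I-c) [H8-CLASS], identity form**: the trace of Frobenius at `q` of an eigenclass `c` with
`c + U_q w_q c = 0`, `w_q c + U_q c = 0` is `± (1 + q)` -/
theorem ihe_trace_frob_class'
    (hc1 : c + (tdmSysU (N' * q) q (Dvd.intro_left N' rfl) hq.out.ne_zero).homPar 𝒪' 𝒪'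
      ((t2fSysW N' q h).homPar 𝒪' 𝒪' c) = 0)
    (hc2 : (t2fSysW N' q h).homPar 𝒪' 𝒪' c
      + (tdmSysU (N' * q) q (Dvd.intro_left N' rfl) hq.out.ne_zero).homPar 𝒪' 𝒪' c = 0) :
    (r φ).trace = 1 + (q : 𝒪') ∨ (r φ).trace = -(1 + (q : 𝒪')) := by
  letI : Algebra ℤ_[p] 𝒪' := tePadicAlgebra p 𝒪' hp𝒪
  set Λ := ihnLink p (N' * q) 𝒪' with hΛ
  have hy₀ne : Λ c ≠ 0 := fun h0 => hc0 (Λ.map_eq_zero_iff.mp h0)
  have hU : ∀ c' : ↥(parabolicHoms 𝒪' (Gamma0 (N' * q)) 𝒪'),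
      Λ ((tdmSysU (N' * q) q (Dvd.intro_left N' rfl) hq.out.ne_zero).homPar 𝒪' 𝒪' c')
        = (t2fUq p N' q).baseChange 𝒪' (Λ c') := fun c' =>
    ihnLink_U p (N' * q) 𝒪' q hq.out (Dvd.intro_left N' rfl) c'
  have hW : ∀ c' : ↥(parabolicHoms 𝒪' (Gamma0 (N' * q)) 𝒪'),
      Λ ((t2fSysW N' q h).homPar 𝒪' 𝒪' c') = (t2fW p N' q h).baseChange 𝒪' (Λ c') := fun c' =>
    ihnLink_homPar p (N' * q) 𝒪' (t2fSysW N' q h) c'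
  have hyK : Λ c ∈ ihePartK p N' q h (𝒪' := 𝒪') := by
    refine ⟨?_, ?_⟩
    · rw [← hW, ← hU, ← map_add, hc1, map_zero]
    · rw [← hW, ← hU, ← map_add, hc2, map_zero]
  have hyT : Λ c ∈ ihnYT p (N' * q) lam S := ihnLink_mem_YT p (N' * q) lam S c hcT
  -- commutations
  have hgU : ∀ y, (ihnGal p (N' * q) φ).baseChange 𝒪' ((t2fUq p N' q).baseChange 𝒪' y)
      = (t2fUq p N' q).baseChange 𝒪' ((ihnGal p (N' * q) φ).baseChange 𝒪' y) := fun y =>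
    ihn_baseChange_comm 𝒪' (ihnGal_comm_U p (N' * q) q hq.out (Dvd.intro_left N' rfl) φ) y
  have hgW : ∀ y, (ihnGal p (N' * q) φ).baseChange 𝒪' ((t2fW p N' q h).baseChange 𝒪' y)
      = (t2fW p N' q h).baseChange 𝒪' ((ihnGal p (N' * q) φ).baseChange 𝒪' y) := fun y =>
    ihn_baseChange_comm 𝒪' (t2fW_comm_gal p N' q h (tddDescent (N' * q))
      (tddDict_toMer Qb (N' * q)) φ) y
  have hUT : ∀ (ℓ : ℕ) (hℓ : ℓ.Prime) (hℓN : ¬ ℓ ∣ N' * q), ℓ ∉ S →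
      t2fUq p N' q * tdmHeckeP p (N' * q) (CuspForm.heckeAlgebra.T hℓ hℓN (Set.notMem_empty ℓ))
        = tdmHeckeP p (N' * q) (CuspForm.heckeAlgebra.T hℓ hℓN (Set.notMem_empty ℓ))
          * t2fUq p N' q := by
    intro ℓ hℓ hℓN _
    rw [t2fUq, ← map_mul, ← map_mul]
    exact congrArg _ (mul_comm _ _)
  have hWT : ∀ (ℓ : ℕ) (hℓ : ℓ.Prime) (hℓN : ¬ ℓ ∣ N' * q), ℓ ∉ S →
      t2fW p N' q h * tdmHeckeP p (N' * q) (CuspForm.heckeAlgebra.T hℓ hℓN (Set.notMem_empty ℓ))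
        = tdmHeckeP p (N' * q) (CuspForm.heckeAlgebra.T hℓ hℓN (Set.notMem_empty ℓ))
          * t2fW p N' q h := fun ℓ hℓ hℓN _ => t2f_WT p N' q h ℓ hℓ hℓN
  refine ihe_trace_frob_TT p N' q h (tddDescent (N' * q)) hqp (tddDict_toMer Qb (N' * q)) A hA φ hφ
    (ihnYT p (N' * q) lam S ⊓ ihePartK p N' q h) ?_ ?_ ?_ ?_ ?_ (r φ).trace ?_ ⟨hyT, hyK⟩ hy₀ne
  · rintro y ⟨hy1, hy2⟩
    refine ⟨ihnYT_stable p (N' * q) lam S hy1 φ, ?_, ?_⟩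
    · show (ihnGal p (N' * q) φ).baseChange 𝒪' y + (t2fUq p N' q).baseChange 𝒪'
        ((t2fW p N' q h).baseChange 𝒪' ((ihnGal p (N' * q) φ).baseChange 𝒪' y)) = 0
      rw [← hgW, ← hgU, ← map_add, hy2.1, map_zero]
    · show (t2fW p N' q h).baseChange 𝒪' ((ihnGal p (N' * q) φ).baseChange 𝒪' y)
        + (t2fUq p N' q).baseChange 𝒪' ((ihnGal p (N' * q) φ).baseChange 𝒪' y) = 0
      rw [← hgW, ← hgU, ← map_add, hy2.2, map_zero]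
  · rintro y ⟨hy1, hy2⟩
    exact ⟨ihnYT_stable_of_comm p (N' * q) lam S (t2fUq p N' q) hUT hy1, ihePartK_U p N' q h hy2⟩
  · rintro y ⟨hy1, hy2⟩
    exact ⟨ihnYT_stable_of_comm p (N' * q) lam S (t2fW p N' q h) hWT hy1, ihePartK_W p N' q h hy2⟩
  · rintro y ⟨_, hy2⟩
    exact hy2.1
  · rintro y ⟨_, hy2⟩
    exact hy2.2
  · rintro y ⟨hy1, _⟩
    have h1 := ihnYT_CH p (N' * q) hp𝒪 lam S hpS hNS r hcts hfrob φ hy1
    rw [hdetφ] at h1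
    exact h1

include hqp hpS hNS hp𝒪 hcts hfrob hc0 hcT hA hφ hdetφ in
/-- **(I-c) [H8-CLASS]**: the trace of Frobenius at `q` of a `q`-new eigenclass is `± (1 + q)` -/
theorem ihe_trace_frob_class
    (hcK : c ∈ ih4K (ih4Cor N' q h 𝒪' 𝒪') (ih4W N' q h 𝒪' 𝒪')) :
    (r φ).trace = 1 + (q : 𝒪') ∨ (r φ).trace = -(1 + (q : 𝒪')) := by
  have hD := ih4_deg N' q h 𝒪' 𝒪'
  refine ihe_trace_frob_class' p N' q h hqp S hpS hNS hp𝒪 lam r hcts hfrob c hc0 hcT A hA φ hφ hdetφ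
    ?_ ?_
  · have h1 := hD.α_β c
    rw [(ih4_mem_K.mp hcK).1, map_zero] at h1
    exact h1.symm
  · have h1 := ih4_U_of_mem_K hD hcK
    show ih4W N' q h 𝒪' 𝒪' c + ih4U 𝒪' 𝒪' (N' * q) q (Dvd.intro_left N' rfl) hq.out.ne_zero c = 0
    rw [h1, add_neg_cancel]

end Main

section OfEq

variable (p : ℕ) [hp : Fact p.Prime]
  {𝒪' : Type} [CommRing 𝒪'] [IsDomain 𝒪'] [IsDiscreteValuationRing 𝒪'] [CharZero 𝒪']
  [IsAdicComplete (maximalIdeal 𝒪') 𝒪'] (hp𝒪 : (p : 𝒪') ∈ maximalIdeal 𝒪')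
  (lam : ℕ → 𝒪') (r : GQ →* Matrix (Fin 2) (Fin 2) 𝒪') (hcts : MatCts 𝒪' r)

include hp𝒪 hcts in
/-- **(I-c) at a level `N₁` given with an equation `N₁ = N' q`** and with the operators `U_q`, `w_q`
given by arbitrary coset systems with the standard representatives -/
theorem ihe_trace_frob_class_of_eq (N' q : ℕ) [hq : Fact q.Prime] (h : ¬ q ∣ N') (hqp : q ≠ p)
    {N₁ : ℕ} [NeZero N₁] (heq : N₁ = N' * q)
    (S : Finset ℕ) (hpS : p ∈ S) (hNS : ∀ ℓ : ℕ, ℓ.Prime → ℓ ∣ N₁ → ℓ ∈ S)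
    (hfrob : ∀ ℓ : ℕ, ℓ.Prime → ℓ ∉ S → ∀ P : ValuationSubring Qb, P.LiesOverPrime ℓ →
      ∀ φ : GQ, P.IsFrobeniusAt φ ℓ → (r φ).trace = lam ℓ ∧ (r φ).det = (ℓ : 𝒪'))
    (c : ↥(parabolicHoms 𝒪' (Gamma0 N₁) 𝒪')) (hc0 : c ≠ 0)
    (hcT : ∀ (ℓ : ℕ) (hℓ : ℓ.Prime) (hℓN : ¬ ℓ ∣ N₁), ℓ ∉ S →
      (tdmSysT N₁ ℓ hℓ hℓN).homPar 𝒪' 𝒪' c = lam ℓ • c)
    (hcK : ∀ (U' : tdmCosetSys (Gamma0 N₁) (Fin q)) (hU' : U'.rep = tdmRepU q)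
      (W' : tdmCosetSys (Gamma0 N₁) Unit) (a b : ℤ) (hab : (q : ℤ) * a - (N' : ℤ) * b = 1)
      (hW' : W'.rep () = t2wMat N' q a b),
      c + U'.homPar 𝒪' 𝒪' (W'.homPar 𝒪' 𝒪' c) = 0 ∧
        W'.homPar 𝒪' 𝒪' c + U'.homPar 𝒪' 𝒪' c = 0)
    (A : ValuationSubring Qb) (hA : A.LiesOverPrime q) (φ : GQ) (hφ : A.IsFrobeniusAt φ q)
    (hdetφ : (r φ).det = (q : 𝒪')) :
    (r φ).trace = 1 + (q : 𝒪') ∨ (r φ).trace = -(1 + (q : 𝒪')) := by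
  subst heq
  haveI : NeZero N' := ⟨fun h0 => by
    have := NeZero.ne (N' * q)
    rw [h0, zero_mul] at this
    exact this rfl⟩
  obtain ⟨h1, h2⟩ := hcK (tdmSysU (N' * q) q (Dvd.intro_left N' rfl) hq.out.ne_zero)
    (tdmSysU_rep _ _ _ _) (t2fSysW N' q h) _ _ (t2w_bezout N' q hq.out h) (t2fSysW_rep N' q h ())
  exact ihe_trace_frob_class' p N' q h hqp S hpS hNS hp𝒪 lam r hcts hfrob c hc0 hcT A hA φ hφ hdetφ
    h1 h2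

end OfEq

end Fermat.Agent.Ihara
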