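/-
IHARA / E (lead), package (I) [E′], part 7: **the field [E′] of `IhaHecke` on helper1's `M^χ`**, from
helper7's `ihk_main_chi` applied to the companion character `χ''` (`χ ≡ χ'' mod ϖ`) and the vanishing
`tr rA''(g) = c` in the Hecke ring of `M^{χ''}` (package (VANISH)).
-/
import Mathlib
import Fermat.Agent.Lib.Ihara.E.Field
import Fermat.Agent.Lib.Ihara.Glue.Top

set_option autoImplicit false
set_option linter.unusedSectionVars false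
set_option linter.unusedVariables false
set_option linter.style.haveILetI false

open IsLocalRing Matrix Polynomial Fermat.Agent.S53Lib Fermat.Agent.TW
open Matrix MatrixGroups CongruenceSubgroup ModularCurve ModularCurve.Period Module
open Fermat.Agent.DS Fermat.Agent.T1 Fermat.Agent.T1G Fermat.Agent.T2

namespace Fermat.Agent.Ihara

local notation "Qbar" => AlgebraicClosure ℚ
local notation "GQ" => (AlgebraicClosure ℚ ≃ₐ[ℚ] AlgebraicClosure ℚ)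

section Main

variable (O : Type) [CommRing O] [IsDomain O] [IsDiscreteValuationRing O] [CharZero O]
  [IsAdicComplete (IsLocalRing.maximalIdeal O) O] [Finite (ResidueField O)]
  (M : ℕ) [NeZero M] (hM : 6 ≤ M)
  (H : Subgroup (ZMod M)ˣ) (Ps : Set ℕ) (θ₀ : ℕ → O)
  {p : ℕ} [Fact p.Prime] (hL : IhfLevel p M H) (hpO : (p : O) ∈ IsLocalRing.maximalIdeal O)
  (Δ₁ : Subgroup ((ZMod M)ˣ ⧸ H)) (χ χ'' : Δ₁ →* O)

/-- the endomorphism `T_ℓ ⟨z ℓ⟩` of the `θ`-part -/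
noncomputable def iheT (z : ℕ → (ZMod M)ˣ) (ℓ : ℕ) : Module.End O (IhmPartT O M H Ps θ₀) :=
  ihmPartTOp O M hM H Ps θ₀ ℓ * ihmPartTDia O M hM H Ps θ₀ ((z ℓ : (ZMod M)ˣ) : (ZMod M)ˣ ⧸ H)

theorem iheT_commute (z : ℕ → (ZMod M)ˣ) (ℓ : ℕ) (g : Δ₁) :
    Commute (iheT O M hM H Ps θ₀ z ℓ) (ihmPartTDia O M hM H Ps θ₀ g) :=
  (ihmPartTOp_commute_dia O M hM H Ps θ₀ ℓ g).mul_left
    (ihm_rho_commute (ihm_quot_comm M H) (ihmPartTDia O M hM H Ps θ₀) _ _)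

theorem ihe_chiOp_mul_dia (z : ℕ → (ZMod M)ˣ) (ℓ : ℕ) :
    ihmChiOp O M hM H Ps θ₀ Δ₁ χ ℓ *
        ihmChiDia O M hM H Ps θ₀ Δ₁ χ ((z ℓ : (ZMod M)ˣ) : (ZMod M)ˣ ⧸ H)
      = ihmChiMap (ihmPartTDia O M hM H Ps θ₀) Δ₁ χ (iheT O M hM H Ps θ₀ z ℓ)
          (iheT_commute O M hM H Ps θ₀ Δ₁ z ℓ) := by
  refine LinearMap.ext fun x => ?_
  obtain ⟨m, rfl⟩ := Submodule.Quotient.mk_surjective _ x
  rfl

end Main

section Datum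

variable (O : Type) [CommRing O] [IsDomain O] [IsDiscreteValuationRing O] [CharZero O]
  [IsAdicComplete (IsLocalRing.maximalIdeal O) O] [Finite (ResidueField O)]
  (M : ℕ) [NeZero M] (hM : 6 ≤ M)
  (H : Subgroup (ZMod M)ˣ) (Ps : Set ℕ) (θ₀ : ℕ → O)
  (p : ℕ) [Fact p.Prime]
  (Δ₁ : Subgroup ((ZMod M)ˣ ⧸ H)) (χ : Δ₁ →* O)
  {N' : ℕ} [NeZero N'] (S : Finset ℕ) (z : ℕ → (ZMod M)ˣ)
  (ρbar : ResidualGaloisRep (ResidueField O))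
  (b : Module.Basis (Fin 2) (ResidueField O) ρbar.V) (Smin : Finset ℕ)

/-- **the output of helper7's `ihk_main_chi`** (verbatim its conclusion) for a given Hecke action `a`,
residual eigensystem `θ'` and representation `rA` on the Hecke ring `IhdImg O a θ'` of `M^χ` -/
def IheDatum
    (a : CuspForm.heckeAlgebra N' 2 (↑S : Set ℕ) →+* Module.End O (IhmChiPart O M hM H Ps θ₀ Δ₁ χ))
    (θ' : CuspForm.heckeAlgebra N' 2 (↑S : Set ℕ) →+* ResidueField O)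
    (hpart : ihdPart O a θ' = ⊤) [Nontrivial ↥(ihdPart O a θ')]
    (rA : GQ →* Matrix (Fin 2) (Fin 2) (IhdImg O a θ')) (hcts : MatCts (IhdImg O a θ') rA) : Prop :=
  (∀ (l : ℕ) (hl : l.Prime) (hlN' : ¬ l ∣ N') (hlS : l ∉ (↑S : Set ℕ)),
    a (CuspForm.heckeAlgebra.T hl hlN' hlS) =
      ihmChiOp O M hM H Ps θ₀ Δ₁ χ l *
        ihmChiDia O M hM H Ps θ₀ Δ₁ χ ((z l : (ZMod M)ˣ) : (ZMod M)ˣ ⧸ H)) ∧
  (∀ (l : ℕ) (hl : l.Prime) (hlN' : ¬ l ∣ N') (hlS : l ∉ (↑S : Set ℕ)),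
    θ' (CuspForm.heckeAlgebra.T hl hlN' hlS) = residue O (θ₀ l)) ∧
  (∀ (δ : (ZMod M)ˣ ⧸ H) (t : IhdImg O a θ'),
    Commute (ihmChiDia O M hM H Ps θ₀ Δ₁ χ δ) (ihiAct O a θ' hpart t)) ∧
  (∀ (f : Module.End O (IhmPartT O M H Ps θ₀))
    (hf : ∀ g : Δ₁, Commute f (ihmPartTDia O M hM H Ps θ₀ g)),
    (∀ ℓ, Commute f (ihmPartTOp O M hM H Ps θ₀ ℓ)) →
    (∀ δ, Commute f (ihmPartTDia O M hM H Ps θ₀ δ)) →
    ∀ t : IhdImg O a θ', Commute (ihmChiMap (ihmPartTDia O M hM H Ps θ₀) Δ₁ χ f hf)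
      (ihiAct O a θ' hpart t)) ∧
  Function.Surjective (residue (IhdImg O a θ') ∘ algebraMap O (IhdImg O a θ')) ∧
  IsStrictLift (𝒪 := O) (resMat ρbar b) rA ∧
  twCond O (fun A _ _ ρ => ρ.IsFlatAt p) p Smin S (ofMat rA hcts) ∧
  IhgTraceDet (𝒪 := O) rA ∧
  (∀ (ℓ : ℕ) (hℓ : ℓ.Prime) (hℓN : ¬ ℓ ∣ N') (hℓS : ℓ ∉ (↑S : Set ℕ)),
    ∀ P : ValuationSubring Qbar, P.LiesOverPrime ℓ → ∀ σ : GQ, P.IsFrobeniusAt σ ℓ →
      ihiAct O a θ' hpart ((rA σ).trace) = a (CuspForm.heckeAlgebra.T hℓ hℓN hℓS)) ∧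
  (∀ (ℓ : ℕ), ℓ.Prime → ℓ ≠ p → ∀ P : ValuationSubring Qbar, P.LiesOverPrime ℓ →
    (∀ σ : GQ, P.IsFrobeniusAt σ ℓ → (rA σ).det = (ℓ : IhdImg O a θ')) ∧
    (∀ σ ∈ P.inertiaSubgroupIn ℚ, (rA σ).det = 1))

end Datum

section Field

variable (O : Type) [CommRing O] [IsDomain O] [IsDiscreteValuationRing O] [CharZero O]
  [IsAdicComplete (IsLocalRing.maximalIdeal O) O] [Finite (ResidueField O)]
  (M : ℕ) [NeZero M] (hM : 6 ≤ M)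
  (H : Subgroup (ZMod M)ˣ) (Ps : Set ℕ) (θ₀ : ℕ → O)
  {p : ℕ} [Fact p.Prime] (hL : IhfLevel p M H) (hpO : (p : O) ∈ IsLocalRing.maximalIdeal O)
  (Δ₁ : Subgroup ((ZMod M)ˣ ⧸ H)) (χ χ'' : Δ₁ →* O)
  (ϖ : O) (hϖ : (Ideal.span {ϖ}).IsMaximal) (hχ : ∀ g : Δ₁, χ g - χ'' g ∈ Ideal.span {ϖ})

include hL hpO hϖ hχ in
/-- **the field [E′] of `IhaHecke`** on `M^χ`, from (VANISH) on `M^{χ''}` -/
theorem ihe_field {N' : ℕ} [NeZero N'] (hMN' : M ∣ N') {S : Finset ℕ}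
    (hS : ∀ l : ℕ, l.Prime → l ∣ N' → l ∈ S) (hPs : ∀ l : ℕ, l.Prime → l ∉ S → l ∈ Ps)
    (hpS : p ∈ S) (hpN' : ¬ p ∣ N')
    (z : ℕ → (ZMod M)ˣ)
    (a₀ : CuspForm.heckeAlgebra N' 2 (↑S : Set ℕ) →+* Module.End O (IhfH O O M H))
    (ha₀ : ∀ (l : ℕ) (hl : l.Prime) (hlN' : ¬ l ∣ N') (hlS : l ∉ (↑S : Set ℕ)),
      a₀ (CuspForm.heckeAlgebra.T hl hlN' hlS) = ihtrOp H O O z l)
    [Nontrivial (IhmChiPart O M hM H Ps θ₀ Δ₁ χ'')]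
    [Module.IsTorsionFree O (IhmChiPart O M hM H Ps θ₀ Δ₁ χ'')]
    (ρbar : ResidualGaloisRep (ResidueField O)) (habs : ρbar.IsAbsolutelyIrreducible)
    (hfrob : ∀ (ℓ : ℕ), ℓ.Prime → ℓ ∉ S →
      ∀ P : ValuationSubring Qbar, P.LiesOverPrime ℓ → ∀ σ : GQ, P.IsFrobeniusAt σ ℓ →
        LinearMap.charpoly (ρbar.ρ σ) =
          X ^ 2 - C (residue O (θ₀ ℓ)) * X + C ((ℓ : ResidueField O)))
    (b : Module.Basis (Fin 2) (ResidueField O) ρbar.V)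
    (Smin : Finset ℕ) (hSmin : ∀ q ∈ Smin, q.Prime → q ≠ p → q ∣ N' ∧ ¬ q ^ 2 ∣ N')
    -- the datum on `M^χ`
    (a : CuspForm.heckeAlgebra N' 2 (↑S : Set ℕ) →+*
      Module.End O (IhmChiPart O M hM H Ps θ₀ Δ₁ χ))
    (θ' : CuspForm.heckeAlgebra N' 2 (↑S : Set ℕ) →+* ResidueField O)
    (hpart : ihdPart O a θ' = ⊤) [Nontrivial ↥(ihdPart O a θ')]
    [Module.Finite O (IhmChiPart O M hM H Ps θ₀ Δ₁ χ)]
    [Module.IsTorsionFree O (IhmChiPart O M hM H Ps θ₀ Δ₁ χ)]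
    (rA : GQ →* Matrix (Fin 2) (Fin 2) (IhdImg O a θ')) (hcts : MatCts (IhdImg O a θ') rA)
    (hD : IheDatum O M hM H Ps θ₀ p Δ₁ χ S z ρbar b Smin a θ' hpart rA hcts)
    -- the element of the Galois group and the constant
    (g : GQ) (c : O)
    -- (VANISH) for every datum on `M^{χ''}`
    (hvan : ∀ (a'' : CuspForm.heckeAlgebra N' 2 (↑S : Set ℕ) →+*
        Module.End O (IhmChiPart O M hM H Ps θ₀ Δ₁ χ''))
      (θ'' : CuspForm.heckeAlgebra N' 2 (↑S : Set ℕ) →+* ResidueField O)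
      (hpart'' : ihdPart O a'' θ'' = ⊤) (hnt : Nontrivial ↥(ihdPart O a'' θ''))
      (rA'' : GQ →* Matrix (Fin 2) (Fin 2) (IhdImg O a'' θ''))
      (hcts'' : MatCts (IhdImg O a'' θ'') rA''),
      IheDatum O M hM H Ps θ₀ p Δ₁ χ'' S z ρbar b Smin a'' θ'' hpart'' rA'' hcts'' →
        (rA'' g).trace = algebraMap O (IhdImg O a'' θ'') c)
    (v : IhmChiPart O M hM H Ps θ₀ Δ₁ χ) :
    ∃ v' : IhmChiPart O M hM H Ps θ₀ Δ₁ χ,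
      ihiAct O a θ' hpart ((rA g).trace - algebraMap O (IhdImg O a θ') c) v = ϖ • v' := by
  obtain ⟨a'', θ'', hpart'', hnt, rA'', hcts'', hD''⟩ :=
    ihk_main_chi O M hM H Ps θ₀ hL hpO Δ₁ χ'' hMN' hS hPs hpS hpN' z a₀ ha₀ ρbar habs hfrob b Smin
      hSmin
  have h0 := hvan a'' θ'' hpart'' hnt rA'' hcts'' hD''
  haveI := hnt
  obtain ⟨haT, -, -, -, -, -, -, -, hFr, -⟩ := hD
  obtain ⟨haT'', -, -, -, -, -, -, -, hFr'', -⟩ := hD''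
  haveI : Module.Finite O (IhmChiPart O M hM H Ps θ₀ Δ₁ χ'') := inferInstance
  have hn₁ := ihe_exists_pow_le (𝒪 := O) (A := IhdImg O a θ') ϖ hϖ
  have hn₂ := ihe_exists_pow_le (𝒪 := O) (A := IhdImg O a'' θ'') ϖ hϖ
  refine ihe_field_of_vanish ϖ (ihmPartTDia O M hM H Ps θ₀) Δ₁ χ χ'' hχ rA hcts rA'' hcts'' hn₁ hn₂
    (ihiAct O a θ' hpart) (ihiAct O a'' θ'' hpart'') S (iheT O M hM H Ps θ₀ z)
    (iheT_commute O M hM H Ps θ₀ Δ₁ z) ?_ ?_ g c ?_ v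
  · intro ℓ hℓ hℓS P hP φ hφ
    have hℓN : ¬ ℓ ∣ N' := fun h => hℓS (hS ℓ hℓ h)
    rw [hFr ℓ hℓ hℓN (by simpa using hℓS) P hP φ hφ, haT ℓ hℓ hℓN (by simpa using hℓS),
      ihe_chiOp_mul_dia]
  · intro ℓ hℓ hℓS P hP φ hφ
    have hℓN : ¬ ℓ ∣ N' := fun h => hℓS (hS ℓ hℓ h)
    rw [hFr'' ℓ hℓ hℓN (by simpa using hℓS) P hP φ hφ, haT'' ℓ hℓ hℓN (by simpa using hℓS),
      ihe_chiOp_mul_dia]
  · rw [h0, sub_self, map_zero]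

end Field

end Fermat.Agent.Ihara
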