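/-
IHARA / E (lead), package (I) [E′], part 8: **the field [E′] in the `IhkOut` shape** of helper7's
`ihk_hecke` (`Glue/Hecke.lean`): the datum on `M^χ` is an `IhkOut`, the companion datum on `M^{χ''}`
(`χ ≡ χ'' mod ϖ`) is produced inside by `ihk_main_chi'`, and (VANISH) is a hypothesis on every
`IhkOut` for `χ''`.
-/
import Mathlib
import Fermat.Agent.Lib.Ihara.E.Main
import Fermat.Agent.Lib.Ihara.Glue.Out

set_option autoImplicit false
set_option linter.unusedSectionVars false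
set_option linter.unusedVariables false
set_option linter.style.haveILetI false

open IsLocalRing Matrix Polynomial Fermat.Agent.S53Lib Fermat.Agent.TW
open Matrix MatrixGroups CongruenceSubgroup ModularCurve ModularCurve.Period Module
open Fermat.Agent.DS Fermat.Agent.T1 Fermat.Agent.T1G Fermat.Agent.T2

namespace Fermat.Agent.Ihara

local notation "Qbar" => AlgebraicClosure ℚ
local notation "GQ" => (AlgebraicClosure ℚ ≃ₐ[ℚ] AlgebraicClosure ℚ)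

section Out

variable (O : Type) [CommRing O] [IsDomain O] [IsDiscreteValuationRing O] [CharZero O]
  [IsAdicComplete (IsLocalRing.maximalIdeal O) O] [Finite (ResidueField O)]
  (M : ℕ) [NeZero M] (hM : 6 ≤ M)
  (H : Subgroup (ZMod M)ˣ) (Ps : Set ℕ) (θ₀ : ℕ → O)
  (p : ℕ) [Fact p.Prime]
  (Δ₁ : Subgroup ((ZMod M)ˣ ⧸ H)) (χ : Δ₁ →* O)
  {N' : ℕ} [NeZero N'] (S : Finset ℕ) (z : ℕ → (ZMod M)ˣ)
  (ρbar : ResidualGaloisRep (ResidueField O))
  (b : Module.Basis (Fin 2) (ResidueField O) ρbar.V) (Smin : Finset ℕ)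

/-- `IhkOut` (helper7) and `IheDatum` (lead) are the same thing -/
theorem iheDatum_iff_out
    (a : CuspForm.heckeAlgebra N' 2 (↑S : Set ℕ) →+* Module.End O (IhmChiPart O M hM H Ps θ₀ Δ₁ χ))
    (θ' : CuspForm.heckeAlgebra N' 2 (↑S : Set ℕ) →+* ResidueField O)
    (hpart : ihdPart O a θ' = ⊤) [Nontrivial ↥(ihdPart O a θ')]
    (rA : GQ →* Matrix (Fin 2) (Fin 2) (IhdImg O a θ')) (hcts : MatCts (IhdImg O a θ') rA) :
    IheDatum O M hM H Ps θ₀ p Δ₁ χ S z ρbar b Smin a θ' hpart rA hcts ↔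
      IhkOut O M hM H Ps θ₀ Δ₁ χ z p ρbar b Smin a θ' hpart rA hcts := by
  constructor
  · rintro ⟨h1, h2, h3, h4, h5, h6, h7, h8, h9, h10⟩
    exact ⟨h1, h2, h3, h4, h5, h6, h7, h8, h9, h10⟩
  · intro out
    exact ⟨out.hecke, out.theta, out.dia_comm, out.map_comm, out.res_surj, out.strict, out.tw,
      out.traceDet, out.trace_frob, out.det⟩

end Out

section Field

variable (O : Type) [CommRing O] [IsDomain O] [IsDiscreteValuationRing O] [CharZero O]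
  [IsAdicComplete (IsLocalRing.maximalIdeal O) O] [Finite (ResidueField O)]
  (M : ℕ) [NeZero M] (hM : 6 ≤ M)
  (H : Subgroup (ZMod M)ˣ) (Ps : Set ℕ) (θ₀ : ℕ → O)
  {p : ℕ} [Fact p.Prime] (hL : IhfLevel p M H) (hpO : (p : O) ∈ IsLocalRing.maximalIdeal O)
  (Δ₁ : Subgroup ((ZMod M)ˣ ⧸ H)) (χ χ'' : Δ₁ →* O)
  (ϖ : O) (hϖ : (Ideal.span {ϖ}).IsMaximal) (hχ : ∀ g : Δ₁, χ g - χ'' g ∈ Ideal.span {ϖ})

include hL hpO hϖ hχ in
/-- **the field [E′] of `IhaHecke`** on `M^χ` in the `IhkOut` shape, from (VANISH) on `M^{χ''}` -/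
theorem ihe_field_out {N' : ℕ} [NeZero N'] (hMN' : M ∣ N') {S : Finset ℕ}
    (hS : ∀ l : ℕ, l.Prime → l ∣ N' → l ∈ S) (hPs : ∀ l : ℕ, l.Prime → l ∉ S → l ∈ Ps)
    (hpS : p ∈ S) (hpN' : ¬ p ∣ N')
    (z : ℕ → (ZMod M)ˣ)
    (a₀ : CuspForm.heckeAlgebra N' 2 (↑S : Set ℕ) →+* Module.End O (IhfH O O M H))
    (ha₀ : ∀ (l : ℕ) (hl : l.Prime) (hlN' : ¬ l ∣ N') (hlS : l ∉ (↑S : Set ℕ)),
      a₀ (CuspForm.heckeAlgebra.T hl hlN' hlS) = ihtrOp H O O z l)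
    [Nontrivial (IhmChiPart O M hM H Ps θ₀ Δ₁ χ'')]
    [Module.IsTorsionFree O (IhmChiPart O M hM H Ps θ₀ Δ₁ χ'')]
    (ρbar : ResidualGaloisRep (ResidueField O)) (habs : ρbar.IsAbsolutelyIrreducible)
    (hfrob : ∀ (ℓ : ℕ), ℓ.Prime → ℓ ∉ S →
      ∀ P : ValuationSubring Qbar, P.LiesOverPrime ℓ → ∀ σ : GQ, P.IsFrobeniusAt σ ℓ →
        LinearMap.charpoly (ρbar.ρ σ) =
          X ^ 2 - C (residue O (θ₀ ℓ)) * X + C ((ℓ : ResidueField O)))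
    (b : Module.Basis (Fin 2) (ResidueField O) ρbar.V)
    (Smin : Finset ℕ) (hSmin : ∀ q ∈ Smin, q.Prime → q ≠ p → q ∣ N' ∧ ¬ q ^ 2 ∣ N')
    -- the element of the Galois group and the constant
    (g : GQ) (c : O)
    -- (VANISH) for every datum on `M^{χ''}`
    (hvan : ∀ (a'' : CuspForm.heckeAlgebra N' 2 (↑S : Set ℕ) →+*
        Module.End O (IhmChiPart O M hM H Ps θ₀ Δ₁ χ''))
      (θ'' : CuspForm.heckeAlgebra N' 2 (↑S : Set ℕ) →+* ResidueField O)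
      (hpart'' : ihdPart O a'' θ'' = ⊤) [Nontrivial ↥(ihdPart O a'' θ'')]
      (rA'' : GQ →* Matrix (Fin 2) (Fin 2) (IhdImg O a'' θ''))
      (hcts'' : MatCts (IhdImg O a'' θ'') rA''),
      IhkOut O M hM H Ps θ₀ Δ₁ χ'' z p ρbar b Smin a'' θ'' hpart'' rA'' hcts'' →
        (rA'' g).trace = algebraMap O (IhdImg O a'' θ'') c)
    -- the datum on `M^χ`
    [Module.Finite O (IhmChiPart O M hM H Ps θ₀ Δ₁ χ)]
    [Module.IsTorsionFree O (IhmChiPart O M hM H Ps θ₀ Δ₁ χ)]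
    (a : CuspForm.heckeAlgebra N' 2 (↑S : Set ℕ) →+*
      Module.End O (IhmChiPart O M hM H Ps θ₀ Δ₁ χ))
    (θ' : CuspForm.heckeAlgebra N' 2 (↑S : Set ℕ) →+* ResidueField O)
    (hpart : ihdPart O a θ' = ⊤) [Nontrivial ↥(ihdPart O a θ')]
    (rA : GQ →* Matrix (Fin 2) (Fin 2) (IhdImg O a θ')) (hcts : MatCts (IhdImg O a θ') rA)
    (out : IhkOut O M hM H Ps θ₀ Δ₁ χ z p ρbar b Smin a θ' hpart rA hcts)
    (v : IhmChiPart O M hM H Ps θ₀ Δ₁ χ) :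
    ∃ v' : IhmChiPart O M hM H Ps θ₀ Δ₁ χ,
      ihiAct O a θ' hpart ((rA g).trace - algebraMap O (IhdImg O a θ') c) v = ϖ • v' := by
  refine ihe_field O M hM H Ps θ₀ hL hpO Δ₁ χ χ'' ϖ hϖ hχ hMN' hS hPs hpS hpN' z a₀ ha₀ ρbar habs
    hfrob b Smin hSmin a θ' hpart rA hcts
    ((iheDatum_iff_out O M hM H Ps θ₀ p Δ₁ χ S z ρbar b Smin a θ' hpart rA hcts).mpr out) g c ?_ v
  intro a'' θ'' hpart'' hnt rA'' hcts'' hD''
  haveI := hnt
  exact hvan a'' θ'' hpart'' rA'' hcts''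
    ((iheDatum_iff_out O M hM H Ps θ₀ p Δ₁ χ'' S z ρbar b Smin a'' θ'' hpart'' rA'' hcts'').mp hD'')

end Field

end Fermat.Agent.Ihara
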