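/-
IHARA / E (lead), package (I) [E′], part 5: **the sign**.

In a local domain `R` with `2 ∉ 𝔪`: if `t = 1 + q` or `t = -(1 + q)`, `q ≡ 1 mod 𝔪`, `c² = 1` and
`t ≡ 2 c mod 𝔪`, then `t = c (1 + q)`.
-/
import Mathlib

set_option autoImplicit false
set_option linter.unusedSectionVars false
set_option linter.unusedVariables false

open IsLocalRing

namespace Fermat.Agent.Ihara

/-- a square root of `1` in a domain is `1` or `-1` -/
theorem ihe_sq_eq_one {R : Type*} [CommRing R] [IsDomain R] {c : R} (hc : c ^ 2 = 1) :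
    c = 1 ∨ c = -1 := by
  have h1 : (c - 1) * (c + 1) = 0 := by ring_nf; rw [hc]; ring
  rcases mul_eq_zero.mp h1 with h2 | h2
  · exact Or.inl (sub_eq_zero.mp h2)
  · exact Or.inr (eq_neg_of_add_eq_zero_left h2)

/-- **the sign of the trace of Frobenius** -/
theorem ihe_sign {R : Type*} [CommRing R] [IsDomain R] [IsLocalRing R]
    (h2 : (2 : R) ∉ maximalIdeal R) {t q c : R} (ht : t = 1 + q ∨ t = -(1 + q))
    (hq : q - 1 ∈ maximalIdeal R) (hc : c ^ 2 = 1) (htc : t - 2 * c ∈ maximalIdeal R) :
    t = c * (1 + q) := by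
  have h2u : IsUnit (2 : R) := by
    by_contra h
    exact h2 ((mem_maximalIdeal _).mpr h)
  -- `1 + q ≡ 2`
  have hq2 : (1 + q) - 2 ∈ maximalIdeal R := by
    have : (1 + q) - 2 = q - 1 := by ring
    rw [this]; exact hq
  have key : ∀ e : R, (e = 1 ∨ e = -1) → t = e * (1 + q) → e = c := by
    intro e he hte
    -- `2 e ≡ 2 c`
    have h3 : 2 * (e - c) ∈ maximalIdeal R := by
      have : 2 * (e - c) = (t - 2 * c) - e * ((1 + q) - 2) := by rw [hte]; ring
      rw [this]
      exact (maximalIdeal R).sub_mem htc ((maximalIdeal R).mul_mem_left _ hq2)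
    have h4 : e - c ∈ maximalIdeal R := by
      rcases (Ideal.IsMaximal.isPrime' (maximalIdeal R)).mem_or_mem h3 with h5 | h5
      · exact absurd h5 h2
      · exact h5
    rcases he with rfl | rfl <;> rcases ihe_sq_eq_one hc with rfl | rfl
    · rfl
    · exfalso
      have : (1 : R) - -1 = 2 := by ring
      rw [this] at h4
      exact h2 h4
    · exfalso
      have : (-1 : R) - 1 = -2 := by ring
      rw [this] at h4
      exact h2 (by simpa using (maximalIdeal R).neg_mem h4)
    · rfl
  rcases ht with ht | ht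
  · have := key 1 (Or.inl rfl) (by rw [ht, one_mul])
    rw [← this, one_mul, ht]
  · have := key (-1) (Or.inr rfl) (by rw [ht]; ring)
    rw [← this, ht]; ring

end Fermat.Agent.Ihara
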